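import Fermat.Agent.H69.CoeffMapIndep
import Fermat.Prelude.Def_AlgebraicCurve_Correspondence

/-!
# P-DS / P-ES1, row ES1-ES-DEG (helper77): descent of relative degrees along `K → L`

For fields `K → L` of characteristic zero and level fields `F₀ ≤ F₁ ⊆ ℚ((q))`: families in
`K((q))` which are linearly independent over `K · F₀` stay linearly independent over `L · F₀`
after the coefficientwise map `K((q)) → L((q))`.  Consequently

`[K · F₁ : K · F₀] ≤ [L · F₁ : L · F₀]`

as soon as the right-hand side is finite.
-/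

set_option autoImplicit false

noncomputable section

namespace Fermat.Agent.H77

open ModularCurve IntermediateField AlgebraicCurve
open scoped IntermediateField.algebraAdjoinAdjoin

section Descent

variable {K L : Type*} [Field K] [Field L] [Algebra ℚ K] [Algebra ℚ L] (ι : K →+* L)

theorem es1d_coeffMap_coeffEmb (x : LaurentSeries ℚ) :
    coeffMap ι (coeffEmb K x) = coeffEmb L x := by
  rw [coeffEmb, coeffMap_coeffMap]
  exact coeffMap_congr (Subsingleton.elim _ _) x

omit [Algebra ℚ K] [Algebra ℚ L] in
theorem es1d_coeffMap_algebraMap (c : K) :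
    coeffMap ι (algebraMap K (LaurentSeries K) c) = algebraMap L (LaurentSeries L) (ι c) := by
  rw [algebraMap_laurentSeries_eq_single, algebraMap_laurentSeries_eq_single, coeffMap_single]

omit [Algebra ℚ K] [Algebra ℚ L] in
theorem es1d_coeffMap_C (c : K) :
    coeffMap ι (HahnSeries.C c) = HahnSeries.C (ι c) :=
  coeffMap_single ι 0 c

theorem es1d_coeffMap_mem {F₀ : IntermediateField ℚ (LaurentSeries ℚ)} {x : LaurentSeries K}
    (hx : x ∈ laurentBaseChange K F₀) : coeffMap ι x ∈ laurentBaseChange L F₀ := by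
  rw [mem_laurentBaseChange_iff] at hx
  induction hx using Subfield.closure_induction with
  | mem y hy =>
      rcases hy with ⟨a, rfl⟩ | ⟨z, hz, rfl⟩
      · rw [es1d_coeffMap_algebraMap]
        exact (laurentBaseChange L F₀).algebraMap_mem _
      · rw [es1d_coeffMap_coeffEmb]
        exact coeffEmb_mem_laurentBaseChange L hz
  | one => simp
  | add x y _ _ hx hy => simpa using add_mem hx hy
  | neg x _ hx => simpa using neg_mem hx
  | inv x _ hx => simpa using inv_mem hx
  | mul x y _ _ hx hy => simpa using mul_mem hx hy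

omit [Algebra ℚ K] in
/-- Scalar multiplication in an intermediate field of `K((q))`. -/
theorem es1d_coe_smul (A : IntermediateField K (LaurentSeries K)) (c : K) (a : ↥A) :
    ((c • a : ↥A) : LaurentSeries K) = HahnSeries.C c * (a : LaurentSeries K) := by
  rw [Algebra.smul_def]
  show algebraMap K (LaurentSeries K) c * (a : LaurentSeries K) = _
  rw [algebraMap_laurentSeries_eq_single]
  rfl

/-- The set of finite `L`-combinations `∑ C (c β) * v β`. -/
def es1dSpan {J : Type*} (v : J → LaurentSeries L) : AddSubgroup (LaurentSeries L) where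
  carrier := {r | ∃ (T : Finset J) (c : J → L), r = ∑ β ∈ T, HahnSeries.C (c β) * v β}
  zero_mem' := ⟨∅, fun _ => 0, by simp⟩
  add_mem' := by
    classical
    rintro _ _ ⟨T, c, rfl⟩ ⟨T', c', rfl⟩
    refine ⟨T ∪ T', fun β => (if β ∈ T then c β else 0) + (if β ∈ T' then c' β else 0), ?_⟩
    have h1 : ∑ β ∈ T, HahnSeries.C (c β) * v β
        = ∑ β ∈ T ∪ T', HahnSeries.C (if β ∈ T then c β else 0) * v β := by
      rw [← Finset.sum_subset (Finset.subset_union_left (s₂ := T'))]
      · exact Finset.sum_congr rfl fun β hβ => by rw [if_pos hβ]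
      · intro β _ hβ
        rw [if_neg hβ, map_zero, zero_mul]
    have h2 : ∑ β ∈ T', HahnSeries.C (c' β) * v β
        = ∑ β ∈ T ∪ T', HahnSeries.C (if β ∈ T' then c' β else 0) * v β := by
      rw [← Finset.sum_subset (Finset.subset_union_right (s₁ := T))]
      · exact Finset.sum_congr rfl fun β hβ => by rw [if_pos hβ]
      · intro β _ hβ
        rw [if_neg hβ, map_zero, zero_mul]
    rw [h1, h2, ← Finset.sum_add_distrib]
    exact Finset.sum_congr rfl fun β _ => by rw [map_add, add_mul]
  neg_mem' := by
    rintro _ ⟨T, c, rfl⟩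
    refine ⟨T, fun β => - c β, ?_⟩
    rw [← Finset.sum_neg_distrib]
    exact Finset.sum_congr rfl fun β _ => by rw [map_neg, neg_mul]

omit [Algebra ℚ L] in
theorem es1d_mem_span_iff {J : Type*} (v : J → LaurentSeries L) {r : LaurentSeries L} :
    r ∈ es1dSpan v ↔ ∃ (T : Finset J) (c : J → L), r = ∑ β ∈ T, HahnSeries.C (c β) * v β :=
  Iff.rfl

omit [Algebra ℚ L] in
theorem es1d_self_mem_span {J : Type*} (v : J → LaurentSeries L) (β : J) : v β ∈ es1dSpan v :=
  ⟨{β}, fun _ => 1, by simp⟩

omit [Algebra ℚ L] in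
theorem es1d_C_mul_mem_span {J : Type*} (v : J → LaurentSeries L) (c : L) {r : LaurentSeries L}
    (hr : r ∈ es1dSpan v) : HahnSeries.C c * r ∈ es1dSpan v := by
  obtain ⟨T, c', rfl⟩ := hr
  refine ⟨T, fun β => c * c' β, ?_⟩
  rw [Finset.mul_sum]
  exact Finset.sum_congr rfl fun β _ => by rw [map_mul, mul_assoc]

/-- The image of `K · F₀` lies in the `L`-span of the image of a `K`-basis of `K · F₀`. -/
theorem es1d_map_mem_span (A : IntermediateField K (LaurentSeries K)) {J : Type*}
    (b : Module.Basis J K ↥A) (a : ↥A) :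
    coeffMap ι (a : LaurentSeries K) ∈
      es1dSpan (fun β => coeffMap ι ((b β : ↥A) : LaurentSeries K)) := by
  classical
  have h1 : (a : LaurentSeries K) = ∑ β ∈ (b.repr a).support,
      HahnSeries.C (b.repr a β) * ((b β : ↥A) : LaurentSeries K) := by
    have h2 := congrArg (fun y : ↥A => (y : LaurentSeries K)) (b.linearCombination_repr a)
    rw [Finsupp.linearCombination_apply, Finsupp.sum] at h2
    have h3 : ((∑ β ∈ (b.repr a).support, (b.repr a β) • b β : ↥A) : LaurentSeries K)
        = ∑ β ∈ (b.repr a).support, (((b.repr a β) • b β : ↥A) : LaurentSeries K) :=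
      map_sum A.val _ _
    rw [← h2]
    show ((∑ β ∈ (b.repr a).support, (b.repr a β) • b β : ↥A) : LaurentSeries K) = _
    rw [h3]
    exact Finset.sum_congr rfl fun β _ => es1d_coe_smul A _ _
  refine ⟨(b.repr a).support, fun β => ι (b.repr a β), ?_⟩
  conv_lhs => rw [h1]
  rw [map_sum]
  exact Finset.sum_congr rfl fun β _ => by rw [map_mul, es1d_coeffMap_C]

/-- The `L`-algebra generated by the image of `F₀` lies in the `L`-span of the image of a
`K`-basis of `K · F₀`. -/
theorem es1d_adjoin_le_span (F₀ : IntermediateField ℚ (LaurentSeries ℚ)) {J : Type*}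
    (b : Module.Basis J K ↥(laurentBaseChange K F₀)) {r : LaurentSeries L}
    (hr : r ∈ Algebra.adjoin L (⇑(coeffEmb L) '' (F₀ : Set (LaurentSeries ℚ)))) :
    r ∈ es1dSpan
      (fun β => coeffMap ι ((b β : ↥(laurentBaseChange K F₀)) : LaurentSeries K)) := by
  induction hr using Algebra.adjoin_induction with
  | mem y hy =>
    obtain ⟨z, hz, rfl⟩ := hy
    rw [← es1d_coeffMap_coeffEmb ι z]
    exact es1d_map_mem_span ι _ b ⟨coeffEmb K z, coeffEmb_mem_laurentBaseChange K hz⟩
  | algebraMap c =>
    have h1 : algebraMap L (LaurentSeries L) c = HahnSeries.C c * coeffMap ι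
        (((1 : ↥(laurentBaseChange K F₀)) : LaurentSeries K)) := by
      rw [algebraMap_laurentSeries_eq_single]
      show HahnSeries.C c = _
      rw [show ((1 : ↥(laurentBaseChange K F₀)) : LaurentSeries K) = 1 from rfl, map_one, mul_one]
    rw [h1]
    exact es1d_C_mul_mem_span _ c (es1d_map_mem_span ι _ b 1)
  | add x y _ _ hx hy => exact add_mem hx hy
  | mul x y _ _ hx hy =>
    obtain ⟨T, c, rfl⟩ := hx
    obtain ⟨T', c', rfl⟩ := hy
    rw [Finset.sum_mul]
    refine sum_mem fun β _ => ?_
    rw [Finset.mul_sum]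
    refine sum_mem fun β' _ => ?_
    have h2 : HahnSeries.C (c β) * coeffMap ι ((b β : ↥(laurentBaseChange K F₀)) : LaurentSeries K)
        * (HahnSeries.C (c' β') *
          coeffMap ι ((b β' : ↥(laurentBaseChange K F₀)) : LaurentSeries K))
        = HahnSeries.C (c β) * (HahnSeries.C (c' β') *
          coeffMap ι (((b β * b β' : ↥(laurentBaseChange K F₀))) : LaurentSeries K)) := by
      rw [show (((b β * b β' : ↥(laurentBaseChange K F₀))) : LaurentSeries K)
        = ((b β : ↥(laurentBaseChange K F₀)) : LaurentSeries K) *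
          ((b β' : ↥(laurentBaseChange K F₀)) : LaurentSeries K) from rfl, map_mul]
      ring
    rw [h2]
    exact es1d_C_mul_mem_span _ _ (es1d_C_mul_mem_span _ _ (es1d_map_mem_span ι _ b _))


/-- Relative linear disjointness, unfolded form. -/
theorem es1d_indep_map_aux (F₀ : IntermediateField ℚ (LaurentSeries ℚ)) {I : Type*}
    (x : I → LaurentSeries K) (hx : LinearIndependent ↥(laurentBaseChange K F₀) x) :
    LinearIndependent
      ↥(IntermediateField.adjoin L (⇑(coeffEmb L) '' (F₀ : Set (LaurentSeries ℚ))))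
      (fun i => coeffMap ι (x i)) := by
  classical
  let b := Module.Basis.ofVectorSpace K ↥(laurentBaseChange K F₀)
  rw [← LinearIndependent.iff_fractionRing
    (Algebra.adjoin L (⇑(coeffEmb L) '' (F₀ : Set (LaurentSeries ℚ))))
    ↥(IntermediateField.adjoin L (⇑(coeffEmb L) '' (F₀ : Set (LaurentSeries ℚ))))]
  rw [linearIndependent_iff']
  intro s g hg i hi
  have hrep := fun k : I => es1d_adjoin_le_span ι F₀ b (g k).2
  choose T c hc using hrep
  let U : Finset _ := s.biUnion T
  let c' : I → _ → L := fun k β => if β ∈ T k then c k β else 0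
  have hc' : ∀ k ∈ s, ((g k : ↥(Algebra.adjoin L (⇑(coeffEmb L) '' (F₀ : Set (LaurentSeries ℚ)))))
      : LaurentSeries L) = ∑ β ∈ U, HahnSeries.C (c' k β) *
        coeffMap ι ((b β : ↥(laurentBaseChange K F₀)) : LaurentSeries K) := by
    intro k hk
    rw [hc k]
    rw [← Finset.sum_subset (Finset.subset_biUnion_of_mem T hk)]
    · exact Finset.sum_congr rfl fun β hβ => by simp only [c', if_pos hβ]
    · intro β _ hβ
      simp only [c', if_neg hβ, map_zero, zero_mul]
  have hrel : ∑ p ∈ U ×ˢ s, HahnSeries.C (c' p.2 p.1) *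
      coeffMap ι (((b p.1 : ↥(laurentBaseChange K F₀)) : LaurentSeries K) * x p.2) = 0 := by
    rw [Finset.sum_product_right]
    rw [← hg]
    refine Finset.sum_congr rfl fun k hk => ?_
    have h1 : (g k • coeffMap ι (x k) : LaurentSeries L)
        = ((g k : ↥(Algebra.adjoin L (⇑(coeffEmb L) '' (F₀ : Set (LaurentSeries ℚ)))))
          : LaurentSeries L) * coeffMap ι (x k) := rfl
    rw [h1, hc' k hk, Finset.sum_mul]
    exact Finset.sum_congr rfl fun β _ => by rw [map_mul, mul_assoc]
  have hind : ∀ a : _ × I → K, ∑ p ∈ U ×ˢ s, HahnSeries.C (a p) *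
      (((b p.1 : ↥(laurentBaseChange K F₀)) : LaurentSeries K) * x p.2) = 0 →
      ∀ p ∈ U ×ˢ s, a p = 0 := by
    intro a ha
    have h1 : ∑ k ∈ s, (∑ β ∈ U, a (β, k) • b β : ↥(laurentBaseChange K F₀)) • x k = 0 := by
      rw [← ha, Finset.sum_product_right]
      refine Finset.sum_congr rfl fun k _ => ?_
      have h2 : ((∑ β ∈ U, a (β, k) • b β : ↥(laurentBaseChange K F₀)) • x k : LaurentSeries K)
          = ((∑ β ∈ U, a (β, k) • b β : ↥(laurentBaseChange K F₀)) : LaurentSeries K) * x k :=
        rfl
      have h3 : ((∑ β ∈ U, a (β, k) • b β : ↥(laurentBaseChange K F₀)) : LaurentSeries K)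
          = ∑ β ∈ U, ((a (β, k) • b β : ↥(laurentBaseChange K F₀)) : LaurentSeries K) :=
        map_sum (laurentBaseChange K F₀).val _ _
      rw [h2, h3, Finset.sum_mul]
      exact Finset.sum_congr rfl fun β _ => by rw [es1d_coe_smul, mul_assoc]
    have h2 := linearIndependent_iff'.mp hx s
      (fun k => (∑ β ∈ U, a (β, k) • b β : ↥(laurentBaseChange K F₀))) h1
    intro p hp
    obtain ⟨hβ, hk⟩ := Finset.mem_product.mp hp
    exact linearIndependent_iff'.mp b.linearIndependent U (fun β => a (β, p.2)) (h2 p.2 hk) p.1 hβ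
  have hzero := Fermat.Agent.H69.coeffMap_rel_descent ι (U ×ˢ s)
    (fun p => ((b p.1 : ↥(laurentBaseChange K F₀)) : LaurentSeries K) * x p.2)
    (fun p => c' p.2 p.1) hrel hind
  apply Subtype.ext
  rw [hc' i hi]
  exact Finset.sum_eq_zero fun β hβ => by
    rw [hzero (β, i) (Finset.mem_product.mpr ⟨hβ, hi⟩), map_zero, zero_mul]

/-- **Relative linear disjointness.**  A family of Laurent series over `K` which is linearly
independent over `K · F₀` stays linearly independent over `L · F₀` after the coefficientwise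
map. -/
theorem es1d_indep_map (F₀ : IntermediateField ℚ (LaurentSeries ℚ)) {I : Type*}
    (x : I → LaurentSeries K) (hx : LinearIndependent ↥(laurentBaseChange K F₀) x) :
    LinearIndependent ↥(laurentBaseChange L F₀) (fun i => coeffMap ι (x i)) :=
  es1d_indep_map_aux ι F₀ x hx

/-- The inclusion of `K · F₁` into `K((q))` as a `K · F₀`-linear map. -/
def es1dVal {A B : IntermediateField K (LaurentSeries K)} (h : A ≤ B) :
    letI := algebraAlong (IntermediateField.inclusion h)
    ↥B →ₗ[↥A] LaurentSeries K :=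
  letI := algebraAlong (IntermediateField.inclusion h)
  { toFun := fun y => (y : LaurentSeries K)
    map_add' := fun _ _ => rfl
    map_smul' := fun _ _ => rfl }


omit [Algebra ℚ K] in
theorem es1dVal_apply {A B : IntermediateField K (LaurentSeries K)} (h : A ≤ B) (y : ↥B) :
    es1dVal h y = (y : LaurentSeries K) := rfl

omit [Algebra ℚ K] in
theorem es1dVal_ker {A B : IntermediateField K (LaurentSeries K)} (h : A ≤ B) :
    letI := algebraAlong (IntermediateField.inclusion h)
    LinearMap.ker (es1dVal h) = ⊥ := by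
  letI := algebraAlong (IntermediateField.inclusion h)
  rw [LinearMap.ker_eq_bot]
  intro y y' hy
  exact Subtype.ext hy

include ι in
/-- Rank form of the descent. -/
theorem es1d_rank_le (F₀ F₁ : IntermediateField ℚ (LaurentSeries ℚ))
    (hK : laurentBaseChange K F₀ ≤ laurentBaseChange K F₁)
    (hL : laurentBaseChange L F₀ ≤ laurentBaseChange L F₁)
    (hfin : FiniteAlong L (IntermediateField.inclusion hL)) :
    letI := algebraAlong (IntermediateField.inclusion hK)
    Module.rank ↥(laurentBaseChange K F₀) ↥(laurentBaseChange K F₁)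
      ≤ (finrankAlong L (IntermediateField.inclusion hL) : ℕ) := by
  classical
  letI iK := algebraAlong (IntermediateField.inclusion hK)
  letI iL := algebraAlong (IntermediateField.inclusion hL)
  have hfin' : Module.Finite ↥(laurentBaseChange L F₀) ↥(laurentBaseChange L F₁) := hfin
  refine rank_le fun s hs => ?_
  have h1 : LinearIndependent ↥(laurentBaseChange K F₀)
      (fun i : s => (((i : ↥(laurentBaseChange K F₁)) : LaurentSeries K))) :=
    hs.map' (es1dVal hK) (es1dVal_ker hK)
  have h2 := es1d_indep_map ι F₀ _ h1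
  have h3 : LinearIndependent ↥(laurentBaseChange L F₀)
      (fun i : s => (⟨coeffMap ι (((i : ↥(laurentBaseChange K F₁)) : LaurentSeries K)),
        es1d_coeffMap_mem ι (i : ↥(laurentBaseChange K F₁)).2⟩ : ↥(laurentBaseChange L F₁))) :=
    LinearIndependent.of_comp (es1dVal hL) h2
  have h4 := h3.fintype_card_le_finrank
  rw [Fintype.card_coe] at h4
  exact h4

include ι in
/-- **Descent of relative degrees.**  If `L · F₁` is finite over `L · F₀`, then `K · F₁` is finite
over `K · F₀`, of degree at most `[L · F₁ : L · F₀]`. -/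
theorem es1d_finrankAlong_le (F₀ F₁ : IntermediateField ℚ (LaurentSeries ℚ))
    (hK : laurentBaseChange K F₀ ≤ laurentBaseChange K F₁)
    (hL : laurentBaseChange L F₀ ≤ laurentBaseChange L F₁)
    (hfin : FiniteAlong L (IntermediateField.inclusion hL)) :
    FiniteAlong K (IntermediateField.inclusion hK) ∧
      finrankAlong K (IntermediateField.inclusion hK)
        ≤ finrankAlong L (IntermediateField.inclusion hL) := by
  have hrank := es1d_rank_le ι F₀ F₁ hK hL hfin
  letI iK := algebraAlong (IntermediateField.inclusion hK)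
  have hlt : Module.rank ↥(laurentBaseChange K F₀) ↥(laurentBaseChange K F₁) < Cardinal.aleph0 :=
    lt_of_le_of_lt hrank (Cardinal.natCast_lt_aleph0)
  exact ⟨Module.rank_lt_aleph0_iff.mp hlt, Module.finrank_le_of_rank_le hrank⟩

end Descent

end Fermat.Agent.H77

end
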