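import Fermat.Agent.H77.ES1Deg.Model

/-!
# P-DS / P-ES1, row ES1-ES-DEG (helper77): the model of the Hecke correspondence is modular

`es1d_isModular : (model1 M).IsModular → p prime → p ∤ M → (es1dModel M p).IsModular`.
-/

set_option autoImplicit false

noncomputable section

open UpperHalfPlane ModularCurve CongruenceSubgroup
open scoped MatrixGroups Manifold

namespace Fermat.Agent.H77

open Fermat.Agent.H29.ES1 Fermat.Agent.H44 Fermat.Agent.H94.EsA Fermat.Agent.H23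
  Fermat.Agent.H32.ES1M

variable {M p : ℕ} [NeZero M] [NeZero p]

/-! ### The field of fractions -/

/-- The generators as Laurent series. -/
def es1dGensL (M p : ℕ) [NeZero M] [NeZero p] : Set (LaurentSeries ℂ) :=
  {x | ∃ r : ↥(F1C M), r ∈ R1 M ∧ x = (r : LaurentSeries ℂ)} ∪
    {x | ∃ r : ↥(F1C M), r ∈ R1 M ∧ x = qExpand ℂ p (r : LaurentSeries ℂ)}

theorem es1d_mem_adjoin_of_mem (hX : (model1 M).IsModular) {f : LaurentSeries ℂ}
    (hf : f ∈ F1C M) :
    f ∈ IntermediateField.adjoin ℂ (es1dGensL M p) ∧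
      qExpand ℂ p f ∈ IntermediateField.adjoin ℂ (es1dGensL M p) := by
  obtain ⟨r, s, hr, hs, hs0, hfs⟩ := hX.frac ⟨f, hf⟩
  have hs0' : (s : LaurentSeries ℂ) ≠ 0 := fun h => hs0 (Subtype.ext h)
  have hfs' : f * (s : LaurentSeries ℂ) = (r : LaurentSeries ℂ) :=
    congrArg (fun y : ↥(F1C M) => (y : LaurentSeries ℂ)) hfs
  have hf' : f = (r : LaurentSeries ℂ) / (s : LaurentSeries ℂ) := by
    rw [eq_div_iff hs0']
    exact hfs'
  constructor
  · rw [hf']
    exact div_mem (IntermediateField.subset_adjoin _ _ (Or.inl ⟨r, hr, rfl⟩))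
      (IntermediateField.subset_adjoin _ _ (Or.inl ⟨s, hs, rfl⟩))
  · rw [hf', map_div₀]
    exact div_mem (IntermediateField.subset_adjoin _ _ (Or.inr ⟨r, hr, rfl⟩))
      (IntermediateField.subset_adjoin _ _ (Or.inr ⟨s, hs, rfl⟩))

theorem es1d_coeffEmb_mem_adjoin (hX : (model1 M).IsModular) {x : LaurentSeries ℚ}
    (hx : x ∈ heckeField (F1 M) p) :
    coeffEmb ℂ x ∈ IntermediateField.adjoin ℂ (es1dGensL M p) := by
  rw [heckeField] at hx
  induction hx using IntermediateField.adjoin_induction with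
  | mem x hx =>
    rcases hx with hx | ⟨y, hy, rfl⟩
    · exact (es1d_mem_adjoin_of_mem hX (coeffEmb_mem_laurentBaseChange ℂ hx)).1
    · rw [es1_coeffEmb_qExpand]
      exact (es1d_mem_adjoin_of_mem hX (coeffEmb_mem_laurentBaseChange ℂ hy)).2
  | algebraMap c =>
    rw [Fermat.Agent.H13.esaC_coeffEmb_algebraMap]
    exact IntermediateField.algebraMap_mem _ _
  | add x y _ _ hx hy => rw [map_add]; exact add_mem hx hy
  | inv x _ hx => rw [map_inv₀]; exact inv_mem hx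
  | mul x y _ _ hx hy => rw [map_mul]; exact mul_mem hx hy

theorem es1dF_le_adjoin (hX : (model1 M).IsModular) :
    es1dF M p ≤ IntermediateField.adjoin ℂ (es1dGensL M p) := by
  show laurentBaseChange ℂ (heckeField (F1 M) p) ≤ _
  rw [laurentBaseChange, IntermediateField.adjoin_le_iff]
  rintro _ ⟨x, hx, rfl⟩
  exact es1d_coeffEmb_mem_adjoin hX hx

theorem es1d_algebraAdjoin_le :
    Algebra.adjoin ℂ (es1dGensL M p) ≤ (es1dR M p).map (es1dF M p).val := by
  rw [Algebra.adjoin_le_iff]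
  rintro _ (⟨r, hr, rfl⟩ | ⟨r, hr, rfl⟩)
  · exact ⟨alphaGen ℂ (F1 M) p r, Algebra.subset_adjoin (Or.inl ⟨r, hr, rfl⟩),
      coe_alphaGen (F1 M) p r⟩
  · exact ⟨betaGen ℂ (F1 M) p r, Algebra.subset_adjoin (Or.inr ⟨r, hr, rfl⟩),
      coe_betaGen (F1 M) p r⟩

/-- Every element of the Hecke-level field is a quotient of two elements of `es1dR M p`. -/
theorem es1d_exists_frac (hX : (model1 M).IsModular) (f : ↥(es1dF M p)) :
    ∃ r s : ↥(es1dF M p), r ∈ es1dR M p ∧ s ∈ es1dR M p ∧ s ≠ 0 ∧ f * s = r := by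
  have hf := es1dF_le_adjoin hX f.2
  rw [IntermediateField.mem_adjoin_iff_div] at hf
  obtain ⟨r, hr, s, hs, hfrs⟩ := hf
  obtain ⟨r', hr', hrr⟩ := es1d_algebraAdjoin_le hr
  obtain ⟨s', hs', hss⟩ := es1d_algebraAdjoin_le hs
  by_cases h0 : s' = 0
  · refine ⟨0, 1, zero_mem _, one_mem _, one_ne_zero, ?_⟩
    have hs0 : s = 0 := by rw [← hss, h0]; simp
    have hf0 : f = 0 := by
      apply Subtype.ext
      rw [hfrs, hs0, div_zero]
      rfl
    rw [hf0]
    simp
  · refine ⟨r', s', hr', hs', h0, ?_⟩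
    apply Subtype.ext
    show (f : LaurentSeries ℂ) * (s' : LaurentSeries ℂ) = (r' : LaurentSeries ℂ)
    have hs0 : s ≠ 0 := by
      rw [← hss]
      intro h
      exact h0 (Subtype.ext h)
    have e1 : (s' : LaurentSeries ℂ) = s := hss
    have e2 : (r' : LaurentSeries ℂ) = r := hrr
    rw [e1, e2, hfrs, div_mul_cancel₀ _ hs0]

/-! ### Separation -/

theorem es1d_sep (hX : (model1 M).IsModular) (γ : SL(2, ℤ))
    (hγ : ∀ (r : ↥(es1dF M p)) (h : ℍ → ℂ), r ∈ es1dR M p →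
      LaurentRel h (r : LaurentSeries ℂ) → ∀ z : ℍ, h (γ • z) = h z) :
    γ ∈ es1dGamma M p := by
  refine ⟨?_, ?_⟩
  · refine hX.sep γ fun (r : ↥(F1C M)) h (hr : r ∈ R1 M)
      (hrel : LaurentRel h (r : LaurentSeries ℂ)) z => ?_
    refine hγ (alphaGen ℂ (F1 M) p r) h (Algebra.subset_adjoin (Or.inl ⟨r, hr, rfl⟩)) ?_ z
    rw [coe_alphaGen]
    exact hrel
  · apply Fermat.Agent.H82.sep_mem_Gamma0 p γ
    intro z
    refine hγ (betaGen ℂ (F1 M) p (jC1 M 1 (one_dvd M))) (jfun ∘ scaleH p)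
      (Algebra.subset_adjoin (Or.inr ⟨_, hX.j_mem, rfl⟩)) ?_ z
    rw [coe_betaGen]
    exact LaurentRel.scale hX.j_rep p

/-! ### The assembly -/

/-- **The model of the Hecke correspondence of `X₁(M)` at `p ∤ M` is modular.** -/
theorem es1d_isModular (hX : (model1 M).IsModular) (hp : p.Prime) (hpM : ¬ p ∣ M) :
    (es1dModel M p).IsModular where
  neg_one_mem := by
    refine ⟨hX.neg_one_mem, ?_⟩
    show (-1 : SL(2, ℤ)) ∈ Gamma0 p
    rw [Gamma0_mem]
    simp
  T_mem := by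
    refine ⟨hX.T_mem, ?_⟩
    show ModularGroup.T ∈ Gamma0 p
    rw [Gamma0_mem]
    simp [ModularGroup.T]
  finiteIndex := by
    have : (gamma1pm M).FiniteIndex := hX.finiteIndex
    show (gamma1pm M ⊓ Gamma0 p).FiniteIndex
    infer_instance
  j_mem := by
    show alphaGen ℂ (F1 M) p (jC1 M 1 (one_dvd M)) ∈ es1dR M p
    exact Algebra.subset_adjoin (Or.inl ⟨_, hX.j_mem, rfl⟩)
  j_rep := by
    show LaurentRel jfun ((alphaGen ℂ (F1 M) p (jC1 M 1 (one_dvd M)) : ↥(es1dF M p)) :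
      LaurentSeries ℂ)
    rw [coe_alphaGen]
    exact hX.j_rep
  frac := es1d_exists_frac hX
  rep := fun r hr => by
    obtain ⟨h, hrel, hinv, hgrow⟩ := es1d_good_of_mem hX hp hpM (r := r) hr
    exact ⟨h, hrel, LaurentRel.mdifferentiable hrel, hinv, es1d_moderateGrowth hgrow⟩
  sep := fun γ hγ => es1d_sep hX γ hγ

end Fermat.Agent.H77

end
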