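import Fermat.Agent.H77.ES1Deg.ModelB
import Fermat.Agent.H77.ES1Deg.Descent
import Fermat.Agent.H23.ES1A.Unconditional
import Fermat.Agent.H65.EsC.DegreeAlpha
import Fermat.Agent.H57.Gamma0Index
import Fermat.Agent.H69.DegreeCPhi
import Fermat.Agent.H16.ES1ESInterfaces

/-!
# P-DS / P-ES1, row ES1-ES-DEG (helper77): `[F1 M · V_p (F1 M) : F1 M] ≤ p + 1`

* `es1d_degreeC` : over `ℂ`, from the degree formula `[F : ℂ(j)] = [SL(2, ℤ) : Γ]` for the
  modular models of `X₁(M)` and of its Hecke correspondence, the tower law and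
  `[Γ : Γ ∩ Γ₀(p)] ≤ [SL(2, ℤ) : Γ₀(p)] = p + 1`;
* `heckeDegree1_of_model1`, `heckeDegree1` : over `ℚ̄`, by descent
  (`es1d_finrankAlong_le`).
-/

set_option autoImplicit false

noncomputable section

open UpperHalfPlane ModularCurve CongruenceSubgroup AlgebraicCurve IntermediateField
open scoped MatrixGroups Manifold

namespace Fermat.Agent.H77

open Fermat.Agent.H29.ES1 Fermat.Agent.H23

theorem es1d_dedekindPsi_prime {p : ℕ} (hp : p.Prime) : dedekindPsi p = p + 1 := by
  have h := Fermat.Agent.H57.dedekindPsi_mul_prime_of_not_dvd (M := 1) one_ne_zero hp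
    (fun h => hp.one_lt.ne' (Nat.dvd_one.mp h))
  have h1 : dedekindPsi 1 = 1 := by
    have := Fermat.Agent.H57.index_Gamma0 1
    rw [Fermat.Agent.H57.Gamma0_one_eq_top, Subgroup.index_top] at this
    exact this.symm
  rw [one_mul, h1, mul_one] at h
  exact h

/-- `[SL(2, ℤ) : Γ ∩ Γ₀(p)] ≤ [SL(2, ℤ) : Γ] (p + 1)`. -/
theorem es1d_index_le (M p : ℕ) [NeZero p] (hp : p.Prime) :
    (es1dGamma M p).index ≤ (gamma1pm M).index * (p + 1) := by
  have h := Subgroup.index_inf_le (H := gamma1pm M) (K := Gamma0 p)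
  rw [Fermat.Agent.H57.index_Gamma0 p, es1d_dedekindPsi_prime hp] at h
  exact h

/-- A homomorphism of positive degree is finite. -/
theorem es1d_finiteAlong_of_pos {K F F' : Type*} [Field K] [Field F] [Field F'] [Algebra K F]
    [Algebra K F'] (φ : F →ₐ[K] F') (h : 0 < finrankAlong K φ) : FiniteAlong K φ := by
  unfold finrankAlong at h
  unfold FiniteAlong
  let _ := algebraAlong φ
  exact Module.finite_of_finrank_pos h

variable {M p : ℕ} [NeZero M] [NeZero p]

/-- `[ℂ · F1 M : ℂ(j)] = [SL(2, ℤ) : ⟨Γ₁(M), -1⟩]`. -/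
theorem es1d_relfinrank_model1 (hX : (model1 M).IsModular) :
    IntermediateField.relfinrank
      ℂ⟮(((model1 M).j : ↥(model1 M).F) : LaurentSeries ℂ)⟯ (F1C M) = (gamma1pm M).index := by
  obtain ⟨-, -, h1⟩ := Fermat.Agent.H23.ES1A.degreeStatement (model1 M) hX
  rw [Fermat.Agent.H65.finrank_adjoin_coe_eq_relfinrank] at h1
  exact h1

/-- `[ℂ · F1 M · V_p (F1 M) : ℂ(j)] = [SL(2, ℤ) : ⟨Γ₁(M), -1⟩ ∩ Γ₀(p)]`. -/
theorem es1d_relfinrank_hecke (hX' : (es1dModel M p).IsModular) :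
    IntermediateField.relfinrank
      ℂ⟮(((model1 M).j : ↥(model1 M).F) : LaurentSeries ℂ)⟯ (es1dF M p)
        = (es1dGamma M p).index := by
  obtain ⟨-, -, h2⟩ := Fermat.Agent.H23.ES1A.degreeStatement (es1dModel M p) hX'
  rw [Fermat.Agent.H65.finrank_adjoin_coe_eq_relfinrank] at h2
  have hj : (((es1dModel M p).j : ↥(es1dModel M p).F) : LaurentSeries ℂ)
      = (((model1 M).j : ↥(model1 M).F) : LaurentSeries ℂ) :=
    coe_alphaGen (F1 M) p _
  rw [hj] at h2
  exact h2

/-- The relative degree over `ℂ`. -/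
theorem es1d_relfinrank_le (hX : (model1 M).IsModular) (hp : p.Prime) (hpM : ¬ p ∣ M) :
    0 < IntermediateField.relfinrank (F1C M) (es1dF M p) ∧
      IntermediateField.relfinrank (F1C M) (es1dF M p) ≤ p + 1 := by
  have hX' := es1d_isModular hX hp hpM
  have h1 := es1d_relfinrank_model1 hX
  have h2 := es1d_relfinrank_hecke hX'
  have hle : F1C M ≤ es1dF M p := es1_laurentBaseChange_mono ℂ (le_heckeField (F1 M) p)
  have hJ : ℂ⟮(((model1 M).j : ↥(model1 M).F) : LaurentSeries ℂ)⟯ ≤ F1C M := by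
    rw [IntermediateField.adjoin_le_iff]
    rintro _ rfl
    exact ((model1 M).j).2
  have hmul := IntermediateField.relfinrank_mul_relfinrank hJ hle
  rw [h1, h2] at hmul
  have hidx := es1d_index_le M p hp
  have hpos : 0 < (gamma1pm M).index := by
    have : (gamma1pm M).FiniteIndex := hX.finiteIndex
    exact Nat.pos_of_ne_zero (Subgroup.FiniteIndex.index_ne_zero)
  have hpos' : 0 < (es1dGamma M p).index := by
    have : (es1dGamma M p).FiniteIndex := hX'.finiteIndex
    exact Nat.pos_of_ne_zero (Subgroup.FiniteIndex.index_ne_zero)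
  constructor
  · rcases Nat.eq_zero_or_pos (IntermediateField.relfinrank (F1C M) (es1dF M p)) with h0 | h0
    · rw [h0, mul_zero] at hmul
      rw [← hmul] at hpos'
      exact absurd hpos' (lt_irrefl 0)
    · exact h0
  · rw [← hmul] at hidx
    exact Nat.le_of_mul_le_mul_left hidx hpos

/-- The degree of `α` over `ℂ`. -/
theorem es1d_degreeC (hX : (model1 M).IsModular) (hp : p.Prime) (hpM : ¬ p ∣ M) :
    FiniteAlong ℂ (alphaGen ℂ (F1 M) p) ∧ finrankAlong ℂ (alphaGen ℂ (F1 M) p) ≤ p + 1 := by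
  obtain ⟨hrel_pos, hrel_le⟩ := es1d_relfinrank_le hX hp hpM
  have hle : F1C M ≤ es1dF M p := es1_laurentBaseChange_mono ℂ (le_heckeField (F1 M) p)
  have hfr : finrankAlong ℂ (alphaGen ℂ (F1 M) p)
      = IntermediateField.relfinrank (F1C M) (es1dF M p) :=
    Fermat.Agent.H65.finrankAlong_inclusion_eq_relfinrank (K := ℂ) hle
  rw [← hfr] at hrel_pos hrel_le
  exact ⟨es1d_finiteAlong_of_pos _ hrel_pos, hrel_le⟩

/-- **ES1-ES-DEG** from the modularity of the model of `X₁(M)`. -/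
theorem heckeDegree1_of_model1 (h : Model1Statement) :
    Fermat.Agent.H16.HeckeDegree1Statement := by
  intro M _ hM p _ hp hpM
  obtain ⟨hfin, hle⟩ := es1d_degreeC (h M hM) hp hpM
  have hL : laurentBaseChange ℂ (F1 M) ≤ laurentBaseChange ℂ (heckeField (F1 M) p) :=
    es1_laurentBaseChange_mono ℂ (le_heckeField (F1 M) p)
  have hK : laurentBaseChange (AlgebraicClosure ℚ) (F1 M)
      ≤ laurentBaseChange (AlgebraicClosure ℚ) (heckeField (F1 M) p) :=
    es1_laurentBaseChange_mono (AlgebraicClosure ℚ) (le_heckeField (F1 M) p)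
  have hd := (es1d_finrankAlong_le Fermat.Agent.H69.DegC.emb (F1 M) (heckeField (F1 M) p)
    hK hL hfin).2
  exact hd.trans hle

/-- The degeneracy map `α` of `X₁(M)` is finite over `ℚ̄`. -/
theorem heckeFinite1_of_model1 (h : Model1Statement) (M : ℕ) [NeZero M] (hM : 5 ≤ M) (p : ℕ)
    [NeZero p] (hp : p.Prime) (hpM : ¬ p ∣ M) :
    FiniteAlong (AlgebraicClosure ℚ) (alphaGen (AlgebraicClosure ℚ) (F1 M) p) := by
  obtain ⟨hfin, -⟩ := es1d_degreeC (h M hM) hp hpM
  have hL : laurentBaseChange ℂ (F1 M) ≤ laurentBaseChange ℂ (heckeField (F1 M) p) :=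
    es1_laurentBaseChange_mono ℂ (le_heckeField (F1 M) p)
  have hK : laurentBaseChange (AlgebraicClosure ℚ) (F1 M)
      ≤ laurentBaseChange (AlgebraicClosure ℚ) (heckeField (F1 M) p) :=
    es1_laurentBaseChange_mono (AlgebraicClosure ℚ) (le_heckeField (F1 M) p)
  exact (es1d_finrankAlong_le Fermat.Agent.H69.DegC.emb (F1 M) (heckeField (F1 M) p)
    hK hL hfin).1

/-- **ES1-ES-DEG** (row 667): `[ℚ̄ · F1 M · V_p (F1 M) : ℚ̄ · F1 M] ≤ p + 1` for `p ∤ M`. -/
theorem heckeDegree1 (hV : VFunStatement) : Fermat.Agent.H16.HeckeDegree1Statement :=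
  heckeDegree1_of_model1 (Fermat.Agent.H32.ES1M.model1Statement hV)

end Fermat.Agent.H77

end
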