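import Fermat.Agent.H77.ES1Deg.Scale
import Fermat.Agent.H32.ES1.Model1

/-!
# P-DS / P-ES1, row ES1-ES-DEG (helper77): the model of the Hecke correspondence of `X₁(M)`

`es1dModel M p = (⟨Γ₁(M), -1⟩ ∩ Γ₀(p), ℂ · F1 M · V_p (F1 M), R', j)` where `R'` is generated by
`R1 M` and `V_p (R1 M)`.  It is modular (`Fermat.Agent.H23.ES1A.Model.IsModular`) as soon as the
model of `X₁(M)` is, for primes `p ∤ M`.
-/

set_option autoImplicit false

noncomputable section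

open UpperHalfPlane ModularCurve CongruenceSubgroup
open scoped MatrixGroups Manifold

namespace Fermat.Agent.H77

open Fermat.Agent.H29.ES1 Fermat.Agent.H44 Fermat.Agent.H94.EsA Fermat.Agent.H23
  Fermat.Agent.H32.ES1M

/-! ### The group -/

/-- The Hecke-level group `⟨Γ₁(M), -1⟩ ∩ Γ₀(p)`. -/
def es1dGamma (M p : ℕ) : Subgroup SL(2, ℤ) := gamma1pm M ⊓ Gamma0 p

/-- The elements `γ` with `γ ∈ Γ₁(M)` or `-γ ∈ Γ₁(M)`. -/
def es1dPm (M : ℕ) : Subgroup SL(2, ℤ) where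
  carrier := {γ | γ ∈ Gamma1 M ∨ -γ ∈ Gamma1 M}
  one_mem' := Or.inl (one_mem _)
  mul_mem' := by
    rintro a b (ha | ha) (hb | hb)
    · exact Or.inl (mul_mem ha hb)
    · refine Or.inr ?_
      rw [← mul_neg]
      exact mul_mem ha hb
    · refine Or.inr ?_
      rw [← neg_mul]
      exact mul_mem ha hb
    · refine Or.inl ?_
      rw [← neg_mul_neg]
      exact mul_mem ha hb
  inv_mem' := by
    rintro a (ha | ha)
    · exact Or.inl (inv_mem ha)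
    · refine Or.inr ?_
      rw [← inv_neg]
      exact inv_mem ha

theorem es1d_gamma1pm_cases {M : ℕ} {γ : SL(2, ℤ)} (hγ : γ ∈ gamma1pm M) :
    γ ∈ Gamma1 M ∨ -γ ∈ Gamma1 M := by
  have h : gamma1pm M ≤ es1dPm M := by
    refine sup_le (fun γ hγ => Or.inl hγ) ?_
    rw [Subgroup.zpowers_le]
    refine Or.inr ?_
    rw [neg_neg]
    exact one_mem _
  exact h hγ

/-- `h ∘ (z ↦ p z)` is invariant under `Γ₁(M) ∩ Γ₀(p)` if `h` is invariant under `Γ₁(M)`. -/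
theorem es1d_invariant_scale_aux {M p : ℕ} [NeZero p] (hp : p.Prime) (hpM : ¬ p ∣ M)
    {h : ℍ → ℂ} (hinv : ∀ γ ∈ Gamma1 M, ∀ z : ℍ, h (γ • z) = h z)
    (γ : SL(2, ℤ)) (h1 : γ ∈ Gamma1 M) (h0 : γ ∈ Gamma0 p) (z : ℍ) :
    h (scaleH p (γ • z)) = h (scaleH p z) := by
  rw [Gamma0_mem, ZMod.intCast_zmod_eq_zero_iff_dvd] at h0
  obtain ⟨c', hc'⟩ := h0
  obtain ⟨δ, e00, e10, e11, hδ⟩ := es1d_scaleH_smul p γ c' hc'
  rw [hδ z]
  refine hinv δ ?_ _
  rw [Gamma1_mem] at h1 ⊢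
  refine ⟨by rw [e00]; exact h1.1, by rw [e11]; exact h1.2.1, ?_⟩
  rw [e10, ZMod.intCast_zmod_eq_zero_iff_dvd]
  have h2 : (M : ℤ) ∣ (p : ℤ) * c' := by
    rw [← hc', ← ZMod.intCast_zmod_eq_zero_iff_dvd]
    exact h1.2.2
  have hcop : IsCoprime (M : ℤ) (p : ℤ) := by
    rw [Int.isCoprime_iff_gcd_eq_one]
    have : Nat.Coprime p M := (Nat.Prime.coprime_iff_not_dvd hp).mpr hpM
    simpa [Int.gcd_natCast_natCast] using this.symm
  exact hcop.dvd_of_dvd_mul_left h2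

/-- `h ∘ (z ↦ p z)` is invariant under `⟨Γ₁(M), -1⟩ ∩ Γ₀(p)` if `h` is invariant under
`⟨Γ₁(M), -1⟩`. -/
theorem es1d_invariant_scale {M p : ℕ} [NeZero p] (hp : p.Prime) (hpM : ¬ p ∣ M)
    {h : ℍ → ℂ} (hinv : ∀ γ ∈ gamma1pm M, ∀ z : ℍ, h (γ • z) = h z) :
    ∀ γ ∈ es1dGamma M p, ∀ z : ℍ, h (scaleH p (γ • z)) = h (scaleH p z) := by
  intro γ hγ z
  have hinv1 : ∀ γ ∈ Gamma1 M, ∀ z : ℍ, h (γ • z) = h z :=
    fun γ hγ => hinv γ (Subgroup.mem_sup_left hγ)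
  have hγ1 : γ ∈ gamma1pm M := hγ.1
  have hγ0 : γ ∈ Gamma0 p := hγ.2
  rcases es1d_gamma1pm_cases hγ1 with h1 | h1
  · exact es1d_invariant_scale_aux hp hpM hinv1 γ h1 hγ0 z
  · have h0 : -γ ∈ Gamma0 p := by
      have : γ ∈ Gamma0 p := hγ.2
      rw [Gamma0_mem] at this ⊢
      simp only [Matrix.SpecialLinearGroup.coe_neg, Matrix.neg_apply, Int.cast_neg]
      rw [this, neg_zero]
    have := es1d_invariant_scale_aux hp hpM hinv1 (-γ) h1 h0 z
    rwa [ModularGroup.SL_neg_smul] at this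

/-! ### The model -/

variable (M p : ℕ) [NeZero M] [NeZero p]

/-- The function field of the Hecke correspondence over `ℂ`. -/
abbrev es1dF : IntermediateField ℂ (LaurentSeries ℂ) :=
  laurentBaseChange ℂ (heckeField (F1 M) p)

/-- The generators of the holomorphic subalgebra: `R1 M` and `V_p (R1 M)`. -/
def es1dGens : Set ↥(es1dF M p) :=
  {x | ∃ r : ↥(F1C M), r ∈ R1 M ∧ x = alphaGen ℂ (F1 M) p r} ∪
    {x | ∃ r : ↥(F1C M), r ∈ R1 M ∧ x = betaGen ℂ (F1 M) p r}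

/-- The holomorphic subalgebra. -/
def es1dR : Subalgebra ℂ ↥(es1dF M p) := Algebra.adjoin ℂ (es1dGens M p)

/-- The model of the Hecke correspondence `X₁(M; p)`. -/
def es1dModel : Fermat.Agent.H23.ES1A.Model where
  Γ := es1dGamma M p
  F := es1dF M p
  R := es1dR M p
  j := alphaGen ℂ (F1 M) p (jC1 M 1 (one_dvd M))

/-! ### Good representatives -/

/-- The predicate carried through the induction over `es1dR M p`. -/
def Es1dGood (r : ↥(es1dF M p)) : Prop :=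
  ∃ h : ℍ → ℂ, LaurentRel h (r : LaurentSeries ℂ) ∧
    (∀ γ ∈ es1dGamma M p, ∀ z : ℍ, h (γ • z) = h z) ∧ HasModerateGrowth h

theorem es1d_hasModerateGrowth {h : ℍ → ℂ} (hg : Fermat.Agent.H23.EsA.ModerateGrowth h) :
    HasModerateGrowth h := by
  intro γ
  obtain ⟨m, C, Y, hb⟩ := hg γ
  exact ⟨m, max C 0, Y, le_max_right _ _, fun z hz =>
    (hb z hz).trans (mul_le_mul_of_nonneg_right (le_max_left _ _) (Real.exp_pos _).le)⟩

theorem es1d_moderateGrowth {h : ℍ → ℂ} (hg : HasModerateGrowth h) :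
    Fermat.Agent.H23.EsA.ModerateGrowth h := by
  intro γ
  obtain ⟨m, C, Y, -, hb⟩ := hg γ
  exact ⟨m, C, Y, hb⟩

variable {M p}

theorem es1d_good_alpha (hX : (model1 M).IsModular) {r : ↥(F1C M)} (hr : r ∈ R1 M) :
    Es1dGood M p (alphaGen ℂ (F1 M) p r) := by
  obtain ⟨h, hrel, -, hinv, hgrow⟩ := hX.rep r hr
  refine ⟨h, ?_, fun γ hγ z => hinv γ (show γ ∈ gamma1pm M from hγ.1) z,
    es1d_hasModerateGrowth hgrow⟩
  rw [coe_alphaGen]
  exact hrel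

theorem es1d_good_beta (hX : (model1 M).IsModular) (hp : p.Prime) (hpM : ¬ p ∣ M)
    {r : ↥(F1C M)} (hr : r ∈ R1 M) :
    Es1dGood M p (betaGen ℂ (F1 M) p r) := by
  obtain ⟨h, hrel, -, hinv, hgrow⟩ := hX.rep r hr
  refine ⟨h ∘ scaleH p, ?_, ?_, es1d_hasModerateGrowth (es1d_growth_scale hgrow p)⟩
  · rw [coe_betaGen]
    exact LaurentRel.scale hrel p
  · intro γ hγ z
    exact es1d_invariant_scale hp hpM hinv γ hγ z

theorem es1d_good_algebraMap (c : ℂ) : Es1dGood M p (algebraMap ℂ ↥(es1dF M p) c) := by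
  refine ⟨fun _ => c, ?_, fun _ _ _ => rfl, growth_const c⟩
  have h : ((algebraMap ℂ ↥(es1dF M p) c : ↥(es1dF M p)) : LaurentSeries ℂ)
      = algebraMap ℂ (LaurentSeries ℂ) c := rfl
  rw [h, algebraMap_laurentSeries_eq_single]
  exact laurentRel_const c

theorem es1d_good_add {a b : ↥(es1dF M p)} (ha : Es1dGood M p a) (hb : Es1dGood M p b) :
    Es1dGood M p (a + b) := by
  obtain ⟨h₁, r₁, i₁, g₁⟩ := ha
  obtain ⟨h₂, r₂, i₂, g₂⟩ := hb
  refine ⟨h₁ + h₂, ?_, ?_, growth_add g₁ g₂⟩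
  · have e : ((a + b : ↥(es1dF M p)) : LaurentSeries ℂ)
        = (a : LaurentSeries ℂ) + (b : LaurentSeries ℂ) := rfl
    rw [e]
    exact LaurentRel.add r₁ r₂
  · intro γ hγ z
    rw [Pi.add_apply, Pi.add_apply, i₁ γ hγ z, i₂ γ hγ z]

theorem es1d_good_mul {a b : ↥(es1dF M p)} (ha : Es1dGood M p a) (hb : Es1dGood M p b) :
    Es1dGood M p (a * b) := by
  obtain ⟨h₁, r₁, i₁, g₁⟩ := ha
  obtain ⟨h₂, r₂, i₂, g₂⟩ := hb
  refine ⟨h₁ * h₂, ?_, ?_, growth_mul g₁ g₂⟩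
  · have e : ((a * b : ↥(es1dF M p)) : LaurentSeries ℂ)
        = (a : LaurentSeries ℂ) * (b : LaurentSeries ℂ) := rfl
    rw [e]
    exact LaurentRel.mul r₁ r₂
  · intro γ hγ z
    rw [Pi.mul_apply, Pi.mul_apply, i₁ γ hγ z, i₂ γ hγ z]

theorem es1d_good_of_mem (hX : (model1 M).IsModular) (hp : p.Prime) (hpM : ¬ p ∣ M)
    {r : ↥(es1dF M p)} (hr : r ∈ es1dR M p) : Es1dGood M p r := by
  rw [es1dR] at hr
  induction hr using Algebra.adjoin_induction with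
  | mem x hx =>
    rcases hx with ⟨r, hr, rfl⟩ | ⟨r, hr, rfl⟩
    · exact es1d_good_alpha hX hr
    · exact es1d_good_beta hX hp hpM hr
  | algebraMap c => exact es1d_good_algebraMap c
  | add x y _ _ hx hy => exact es1d_good_add hx hy
  | mul x y _ _ hx hy => exact es1d_good_mul hx hy

end Fermat.Agent.H77

end
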