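import Fermat.Agent.H82.Separation
import Fermat.Agent.H23.EsA.Defs

/-!
# P-DS / P-ES1, row ES1-ES-DEG (helper77): the substitution `z ↦ d z`

* `es1d_scaleH_smul` : for `γ ∈ SL(2, ℤ)` with `d ∣ c`, `d (γ z) = δ (d z)` with
  `δ = [[a, d b], [c / d, d']]`;
* `es1d_growth_scale` : moderate growth at all cusps is preserved by `h ↦ h ∘ (z ↦ d z)`.
-/

set_option autoImplicit false

noncomputable section

namespace Fermat.Agent.H77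

open UpperHalfPlane ModularForm CongruenceSubgroup MatrixGroups Matrix
open Fermat.Agent.H18 Fermat.Agent.H23 Fermat.Agent.H82

/-- Conjugation by `diag(d, 1)`: if `d ∣ c` then `d (γ z) = δ (d z)`,
`δ = [[a, d b], [c / d, d']]`. -/
theorem es1d_scaleH_smul (d : ℕ) [NeZero d] (γ : SL(2, ℤ)) (c' : ℤ) (hc' : γ 1 0 = d * c') :
    ∃ δ : SL(2, ℤ), δ 0 0 = γ 0 0 ∧ δ 1 0 = c' ∧ δ 1 1 = γ 1 1 ∧
      ∀ z : ℍ, scaleH d (γ • z) = δ • scaleH d z := by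
  have hd0 : 0 < d := Nat.pos_of_ne_zero (NeZero.ne d)
  have hne : (((d : ℤ) : ℝ) * ((1 : ℤ) : ℝ)) ≠ 0 := by simp [hd0.ne']
  have hdet : γ 0 0 * γ 1 1 - γ 0 1 * γ 1 0 = 1 := by
    have := γ.det_coe
    rwa [Matrix.det_fin_two] at this
  let δ : SL(2, ℤ) := ⟨!![γ 0 0, d * γ 0 1; c', γ 1 1], by
    rw [Matrix.det_fin_two_of]
    rw [hc'] at hdet
    linear_combination hdet⟩
  have key := mapGL_mul_upperGL_eq δ γ d 0 1 d 0 1 hne hne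
    (by simp [δ]; ring) (by simp [δ]) (by simp [δ]; rw [hc']; ring) (by simp [δ])
  refine ⟨δ, rfl, rfl, rfl, fun z => ?_⟩
  calc scaleH d (γ • z)
      = upperGL ((d : ℤ) : ℝ) ((0 : ℤ) : ℝ) ((1 : ℤ) : ℝ) hne • (γ • z) := by
        rw [sep_scaleH_eq d hne]
    _ = (upperGL ((d : ℤ) : ℝ) ((0 : ℤ) : ℝ) ((1 : ℤ) : ℝ) hne * (γ : GL (Fin 2) ℝ)) • z := by
        rw [mul_smul]; rfl
    _ = ((δ : GL (Fin 2) ℝ) * upperGL ((d : ℤ) : ℝ) ((0 : ℤ) : ℝ) ((1 : ℤ) : ℝ) hne) • z := by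
        rw [key]
    _ = δ • (upperGL ((d : ℤ) : ℝ) ((0 : ℤ) : ℝ) ((1 : ℤ) : ℝ) hne • z) := by
        rw [mul_smul]; rfl
    _ = δ • scaleH d z := by rw [sep_scaleH_eq d hne]

open Real in
/-- Moderate growth at all cusps is preserved by the substitution `z ↦ d z`. -/
theorem es1d_growth_scale {h : ℍ → ℂ} (hg : Fermat.Agent.H23.EsA.ModerateGrowth h) (d : ℕ)
    [NeZero d] : Fermat.Agent.H23.EsA.ModerateGrowth (h ∘ scaleH d) := by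
  intro γ
  obtain ⟨g, D, B, σ, hgpos, hD, hne1, hne2, hND, -, key⟩ := sep_exists_decomp d γ
  obtain ⟨m, C, Y, hb⟩ := hg σ
  have hgR : (0 : ℝ) < ((g : ℤ) : ℝ) := by exact_mod_cast hgpos
  have hDR : (0 : ℝ) < ((D : ℤ) : ℝ) := by exact_mod_cast hD
  have hD1 : (1 : ℝ) ≤ ((D : ℤ) : ℝ) := by exact_mod_cast hD
  have hg1 : (1 : ℝ) ≤ ((g : ℤ) : ℝ) := by exact_mod_cast hgpos
  have hdR : ((d : ℕ) : ℝ) = ((g : ℤ) : ℝ) * ((D : ℤ) : ℝ) := by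
    rw [hND]; push_cast; ring
  refine ⟨m * d, max C 0, max 0 (Y * ((D : ℤ) : ℝ)), fun z hz' => ?_⟩
  have hz0 : 0 ≤ z.im := z.im_pos.le
  have hzY : Y * ((D : ℤ) : ℝ) ≤ z.im := le_trans (le_max_right _ _) hz'
  set w : ℍ := upperGL ((g : ℤ) : ℝ) (B : ℝ) ((D : ℤ) : ℝ) hne1 • z with hw
  have hzw : scaleH d (γ • z) = σ • w := by
    calc scaleH d (γ • z)
        = upperGL ((d : ℤ) : ℝ) ((0 : ℤ) : ℝ) ((1 : ℤ) : ℝ) hne2 • (γ • z) := by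
          rw [sep_scaleH_eq d hne2]
      _ = (upperGL ((d : ℤ) : ℝ) ((0 : ℤ) : ℝ) ((1 : ℤ) : ℝ) hne2 * (γ : GL (Fin 2) ℝ)) • z := by
          rw [mul_smul]; rfl
      _ = ((σ : GL (Fin 2) ℝ) * upperGL ((g : ℤ) : ℝ) (B : ℝ) ((D : ℤ) : ℝ) hne1) • z := by
          rw [key]
      _ = σ • w := by
          rw [mul_smul]; rfl
  have him : w.im = ((g : ℤ) : ℝ) * z.im / ((D : ℤ) : ℝ) :=
    im_upperGL_smul ((g : ℤ) : ℝ) (B : ℝ) ((D : ℤ) : ℝ) hgR hDR z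
  have hYw : Y ≤ w.im := by
    rw [him, le_div_iff₀ hDR]
    calc Y * ((D : ℤ) : ℝ) ≤ z.im := hzY
      _ ≤ ((g : ℤ) : ℝ) * z.im := by nlinarith
  have hle : w.im ≤ d * z.im := by
    rw [him, hdR, div_le_iff₀ hDR]
    have h0 : 0 ≤ ((g : ℤ) : ℝ) * z.im := by positivity
    have h1 : ((g : ℤ) : ℝ) * z.im ≤ ((g : ℤ) : ℝ) * z.im * ((D : ℤ) : ℝ) :=
      le_mul_of_one_le_right h0 hD1
    have h2 : ((g : ℤ) : ℝ) * z.im * ((D : ℤ) : ℝ) ≤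
        ((g : ℤ) : ℝ) * z.im * ((D : ℤ) : ℝ) * ((D : ℤ) : ℝ) :=
      le_mul_of_one_le_right (by positivity) hD1
    calc ((g : ℤ) : ℝ) * z.im ≤ ((g : ℤ) : ℝ) * z.im * ((D : ℤ) : ℝ) * ((D : ℤ) : ℝ) :=
          h1.trans h2
      _ = ((g : ℤ) : ℝ) * ((D : ℤ) : ℝ) * z.im * ((D : ℤ) : ℝ) := by ring
  have hw0 : 0 ≤ w.im := w.im_pos.le
  have hm0 : (0 : ℝ) ≤ (m : ℝ) := Nat.cast_nonneg m
  show ‖h (scaleH d (γ • z))‖ ≤ max C 0 * Real.exp (2 * π * ((m * d : ℕ) : ℝ) * z.im)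
  rw [hzw]
  calc ‖h (σ • w)‖ ≤ C * Real.exp (2 * π * m * w.im) := hb w hYw
    _ ≤ max C 0 * Real.exp (2 * π * m * w.im) :=
        mul_le_mul_of_nonneg_right (le_max_left _ _) (Real.exp_pos _).le
    _ ≤ max C 0 * Real.exp (2 * π * ((m * d : ℕ) : ℝ) * z.im) := by
        have hpi : 0 < π := Real.pi_pos
        have hexp : 2 * π * m * w.im ≤ 2 * π * ((m * d : ℕ) : ℝ) * z.im := by
          push_cast
          have h3 : (m : ℝ) * w.im ≤ (m : ℝ) * (d * z.im) := mul_le_mul_of_nonneg_left hle hm0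
          nlinarith
        exact mul_le_mul_of_nonneg_left (Real.exp_le_exp.mpr hexp) (le_max_right _ _)

end Fermat.Agent.H77

end
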